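import Fermat.Agent.Frob.Exists
import Fermat.Prelude.Def_FLTPrelim_Ramification

/-!
# Concrete description of the inertia subgroup of a valuation subring

* `mem_inertiaSubgroupIn_iff` : `σ` is in the inertia subgroup of `A` iff
  `σ x - x` is a nonunit of `A` for every `x ∈ A`.
* `mem_inertiaSubgroupIn_of_centre` : for `L = ℚ̄`, it is enough to check algebraic integers.
-/

set_option autoImplicit false

namespace Fermat.Agent.Minkowski

open scoped Pointwise
open Fermat.Agent.Frob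

section general

variable {K L : Type*} [Field K] [Field L] [Algebra K L]

/-- For `σ` in the inertia group, `σ x ∈ A` and `σ x - x` is in the maximal ideal. -/
theorem sub_mem_nonunits_of_mem_inertia {A : ValuationSubring L} {σ : L ≃ₐ[K] L}
    (hσ : σ ∈ A.inertiaSubgroupIn K) {x : L} (hx : x ∈ A) : σ x ∈ A ∧ σ x - x ∈ A.nonunits := by
  obtain ⟨⟨g, hg⟩, hg2, rfl⟩ := hσ
  have h1 : g x ∈ A := by
    have : g • x ∈ g • A := ValuationSubring.smul_mem_pointwise_smul _ _ _ hx
    have h2 : g • A = A := hg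
    rw [h2] at this
    exact this
  refine ⟨h1, ?_⟩
  rw [ValuationSubring.mem_nonunits_iff_exists_mem_maximalIdeal]
  refine ⟨sub_mem h1 hx, ?_⟩
  have h3 : MulSemiringAction.toRingAut (A.decompositionSubgroup K) (IsLocalRing.ResidueField A)
    ⟨g, hg⟩ = 1 := hg2
  have h4 := DFunLike.congr_fun h3 (IsLocalRing.residue A ⟨x, hx⟩)
  have h5 : (⟨g, hg⟩ : A.decompositionSubgroup K) • IsLocalRing.residue A ⟨x, hx⟩ =
    IsLocalRing.residue A ⟨x, hx⟩ := h4
  rw [← IsLocalRing.ResidueField.residue_smul, ← sub_eq_zero, ← map_sub,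
    IsLocalRing.residue_eq_zero_iff] at h5
  exact h5

theorem mem_inertiaSubgroupIn_of_forall {A : ValuationSubring L} {σ : L ≃ₐ[K] L}
    (h : ∀ x ∈ A, σ x - x ∈ A.nonunits) (h' : ∀ x ∈ A, σ.symm x ∈ A) :
    σ ∈ A.inertiaSubgroupIn K := by
  have h1 : ∀ x ∈ A, σ x ∈ A := by
    intro x hx
    obtain ⟨ha, -⟩ := ValuationSubring.mem_nonunits_iff_exists_mem_maximalIdeal.mp (h x hx)
    have : σ x = (σ x - x) + x := by ring
    rw [this]
    exact A.add_mem _ _ ha hx
  have hg : σ ∈ A.decompositionSubgroup K := by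
    change σ • A = A
    apply le_antisymm
    · intro y hy
      obtain ⟨x, hx, rfl⟩ := (ValuationSubring.mem_smul_pointwise_iff_exists σ y A).mp hy
      exact h1 x hx
    · intro y hy
      rw [ValuationSubring.mem_smul_pointwise_iff_exists]
      exact ⟨σ.symm y, h' y hy, σ.apply_symm_apply y⟩
  refine ⟨⟨σ, hg⟩, ?_, rfl⟩
  change MulSemiringAction.toRingAut (A.decompositionSubgroup K) (IsLocalRing.ResidueField A)
    ⟨σ, hg⟩ = 1
  ext x
  obtain ⟨⟨a, ha⟩, rfl⟩ := IsLocalRing.residue_surjective x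
  change (⟨σ, hg⟩ : A.decompositionSubgroup K) • IsLocalRing.residue A ⟨a, ha⟩ =
    IsLocalRing.residue A ⟨a, ha⟩
  rw [← IsLocalRing.ResidueField.residue_smul, ← sub_eq_zero, ← map_sub,
    IsLocalRing.residue_eq_zero_iff]
  obtain ⟨h2, h3⟩ := ValuationSubring.mem_nonunits_iff_exists_mem_maximalIdeal.mp (h a ha)
  exact h3

end general

/-- It is enough to check inertia on algebraic integers. -/
theorem mem_inertiaSubgroupIn_of_centre {A : ValuationSubring (AlgebraicClosure ℚ)} {ℓ : ℕ}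
    (hℓ : ℓ.Prime) (hA : A.LiesOverPrime ℓ) {σ : GQ}
    (hσ : ∀ x : Zbar, σ • x - x ∈ centre A) : σ ∈ A.inertiaSubgroupIn ℚ := by
  have hσ' : ∀ x : Zbar, σ⁻¹ • x - x ∈ centre A := by
    intro x
    have := hσ (σ⁻¹ • x)
    rw [smul_inv_smul] at this
    have h2 := (centre A).neg_mem this
    rwa [neg_sub] at h2
  have key1 : ∀ s : Zbar, s ∉ centre A → σ • s ∉ centre A := by
    intro s hs h
    apply hs
    have := (centre A).sub_mem h (hσ s)
    simpa using this
  have key2 : ∀ s : Zbar, s ∉ centre A → σ⁻¹ • s ∉ centre A := by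
    intro s hs h
    apply hs
    have := (centre A).sub_mem h (hσ' s)
    simpa using this
  apply mem_inertiaSubgroupIn_of_forall
  · intro a ha
    obtain ⟨b, s, hs, h⟩ := exists_fraction hℓ hA ha
    obtain ⟨hs1, hs0⟩ := isUnit_of_notMem_centre hs
    obtain ⟨hσs1, hσs0⟩ := isUnit_of_notMem_centre (key1 s hs)
    have h2 : σ a * σ (s : AlgebraicClosure ℚ) = σ (b : AlgebraicClosure ℚ) := by
      rw [← map_mul, h]
    have e1 : ((σ • s : Zbar) : AlgebraicClosure ℚ) = σ (s : AlgebraicClosure ℚ) := rfl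
    have e2 : ((σ • b : Zbar) : AlgebraicClosure ℚ) = σ (b : AlgebraicClosure ℚ) := rfl
    -- (σ a - a) * s * σ s = σ b * s - b * σ s
    have h3 : σ a - a = (((σ • b - b) * s - b * (σ • s - s) : Zbar) : AlgebraicClosure ℚ) *
        ((s : AlgebraicClosure ℚ)⁻¹ * ((σ • s : Zbar) : AlgebraicClosure ℚ)⁻¹) := by
      have e3 : (((σ • b - b) * s - b * (σ • s - s) : Zbar) : AlgebraicClosure ℚ) =
        σ (b : AlgebraicClosure ℚ) * s - b * σ (s : AlgebraicClosure ℚ) := by
        push_cast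
        rw [e1, e2]
        ring
      rw [e3, ← h2, ← h]
      rw [e1] at hσs0
      rw [e1]
      field_simp
    have h4 : (σ • b - b) * s - b * (σ • s - s) ∈ centre A :=
      (centre A).sub_mem ((centre A).mul_mem_right _ (hσ b)) ((centre A).mul_mem_left _ (hσ s))
    rw [h3]
    rw [ValuationSubring.mem_nonunits_iff_exists_mem_maximalIdeal]
    refine ⟨A.mul_mem _ _ (mem_of_mem_Zbar A _) (A.mul_mem _ _ hs1 hσs1), ?_⟩
    have : (⟨_, A.mul_mem _ _ (mem_of_mem_Zbar A ((σ • b - b) * s - b * (σ • s - s)))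
        (A.mul_mem _ _ hs1 hσs1)⟩ : A) =
        toVal A ((σ • b - b) * s - b * (σ • s - s)) * ⟨_, A.mul_mem _ _ hs1 hσs1⟩ := rfl
    rw [this]
    exact Ideal.mul_mem_right _ _ h4
  · intro a ha
    exact smul_le_of_smul_centre_le hℓ hA key2 ha

end Fermat.Agent.Minkowski
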