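import Fermat.Agent.Frob.Exists
import Fermat.Agent.Minkowski.Inertia
import Mathlib.NumberTheory.NumberField.ExistsRamified

set_option autoImplicit false

namespace Fermat.Agent.Minkowski

open scoped Pointwise NumberField
open Fermat.Agent.Frob

/-- inclusion of the ring of integers of a subfield in the algebraic integers -/
noncomputable def incl (F : IntermediateField ℚ (AlgebraicClosure ℚ)) : 𝓞 F →+* Zbar where
  toFun z := ⟨((z : F) : AlgebraicClosure ℚ), z.2.map F.val.toIntAlgHom⟩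
  map_one' := rfl
  map_mul' := fun _ _ => rfl
  map_zero' := rfl
  map_add' := fun _ _ => rfl

lemma coe_incl (F : IntermediateField ℚ (AlgebraicClosure ℚ)) (z : 𝓞 F) :
    (incl F z : AlgebraicClosure ℚ) = ((z : F) : AlgebraicClosure ℚ) := rfl

/-- A finite Galois extension of `ℚ` of degree `> 1` has a nontrivial inertia group. -/
lemma exists_inertia_ne_one (F : IntermediateField ℚ (AlgebraicClosure ℚ)) [FiniteDimensional ℚ F]
    [IsGalois ℚ F] (hF : 1 < Module.finrank ℚ F) :
    ∃ (p : ℕ) (A : ValuationSubring (AlgebraicClosure ℚ)) (τ : F ≃ₐ[ℚ] F),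
      p.Prime ∧ A.LiesOverPrime p ∧ τ ≠ 1 ∧
      ∀ x : 𝓞 F, ∃ y : 𝓞 F, (y : F) = τ x - x ∧ incl F y ∈ centre A := by
  have : NumberField F := ⟨⟩
  obtain ⟨p, hp, hram⟩ := NumberField.exists_not_isUnramifiedAt_int_of_isGalois (K := F)
    (𝒪 := 𝓞 F) hF
  obtain ⟨A, hA⟩ := exists_liesOverPrime p hp
  let P : Ideal (𝓞 F) := (centre A).comap (incl F)
  have hP : P.IsPrime := Ideal.comap_isPrime _ _
  have hPp : (p : 𝓞 F) ∈ P := by
    change incl F (p : 𝓞 F) ∈ centre A
    rw [map_natCast]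
    exact natCast_mem_centre hA
  have hnu := hram P hP hPp
  have hP0 : P ≠ ⊥ := by
    intro h
    rw [h, Ideal.mem_bot] at hPp
    exact hp.ne_zero (by exact_mod_cast hPp)
  have hPmax : P.IsMaximal := hP.isMaximal hP0
  let p' : Ideal ℤ := P.under ℤ
  have hp'0 : p' ≠ ⊥ := by
    intro h
    exact hP0 (Ideal.eq_bot_of_comap_eq_bot h)
  have hp'p : p'.IsPrime := inferInstance
  have hfin : Finite (ℤ ⧸ p') := Ring.HasFiniteQuotients.finiteQuotient hp'0
  have hp'm : p'.IsMaximal := hp'p.isMaximal hp'0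
  have hfin2 : Finite p'.ResidueField := inferInstance
  have hcard := Ideal.card_inertia_eq_ramificationIdxIn (G := F ≃ₐ[ℚ] F) p' P
  rw [Ideal.ramificationIdxIn_eq_ramificationIdx p' P (F ≃ₐ[ℚ] F)] at hcard
  have hne : Nat.card (P.inertia (F ≃ₐ[ℚ] F)) ≠ 1 := by
    rw [hcard, Ne, Ideal.ramificationIdx_eq_one_iff]
    exact hnu
  have : ∃ τ : P.inertia (F ≃ₐ[ℚ] F), τ ≠ 1 := by
    by_contra h
    push Not at h
    apply hne
    rw [Nat.card_eq_one_iff_unique]
    exact ⟨⟨fun a b => by rw [h a, h b]⟩, ⟨1⟩⟩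
  obtain ⟨⟨τ, hτ⟩, hτ1⟩ := this
  refine ⟨p, A, τ, hp, hA, fun h => hτ1 (Subtype.ext h), fun x => ?_⟩
  refine ⟨τ • x - x, ?_, ?_⟩
  · rfl
  · exact hτ x

/-- discrete topology on the algebraic integers (local use only) -/
local instance topZbar' : TopologicalSpace Zbar := ⊥
local instance discZbar' : DiscreteTopology Zbar := ⟨rfl⟩

local instance contSMulZbar' : ContinuousSMul GQ Zbar := by
  rw [continuousSMul_iff_stabilizer_isOpen]
  intro x
  have h := stabilizer_isOpen_of_isIntegral (K := ℚ) (L := AlgebraicClosure ℚ)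
    (x : AlgebraicClosure ℚ)
  convert h using 1
  ext g
  constructor
  · intro hg
    exact congrArg (fun x : Zbar => (x : AlgebraicClosure ℚ)) hg
  · intro hg
    exact Subtype.ext hg

/-- Lifting elements of the inertia group from a finite layer to `ℚ̄`. -/
theorem exists_lift_inertia (F : IntermediateField ℚ (AlgebraicClosure ℚ)) [FiniteDimensional ℚ F]
    [IsGalois ℚ F] {p : ℕ} (hp : p.Prime) {A : ValuationSubring (AlgebraicClosure ℚ)}
    (hA : A.LiesOverPrime p) (τ : F ≃ₐ[ℚ] F)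
    (hτ : ∀ x : 𝓞 F, ∃ y : 𝓞 F, (y : F) = τ x - x ∧ incl F y ∈ centre A) :
    ∃ σ ∈ A.inertiaSubgroupIn ℚ, ∀ x : F, σ (x : AlgebraicClosure ℚ) = τ x := by
  have hNF : NumberField F := ⟨⟩
  obtain ⟨σ₀, hσ₀⟩ := AlgEquiv.restrictNormalHom_surjective (F := ℚ) (K₁ := F)
    (AlgebraicClosure ℚ) τ
  have hσ₀' : ∀ x : F, σ₀ (x : AlgebraicClosure ℚ) = τ x := by
    intro x
    have := AlgEquiv.restrictNormal_commutes σ₀ F x
    rw [← hσ₀]
    exact this.symm
  let H : Subgroup GQ := F.fixingSubgroup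
  have hHo : IsOpen (H : Set GQ) := IntermediateField.fixingSubgroup_isOpen F
  have hHc : IsClosed (H : Set GQ) := H.isClosed_of_isOpen hHo
  have : CompactSpace H := isCompact_iff_compactSpace.mp hHc.isCompact
  let algR : Algebra (𝓞 F) Zbar := (incl F).toAlgebra
  have hsm : ∀ (r : 𝓞 F) (x : Zbar), r • x = incl F r * x := fun r x => rfl
  have hcomm : SMulCommClass H (𝓞 F) Zbar := by
    constructor
    rintro ⟨h, hh⟩ r x
    apply Subtype.ext
    change h (((r : F) : AlgebraicClosure ℚ) * (x : AlgebraicClosure ℚ)) =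
      ((r : F) : AlgebraicClosure ℚ) * h (x : AlgebraicClosure ℚ)
    have h1 : h ((r : F) : AlgebraicClosure ℚ) = ((r : F) : AlgebraicClosure ℚ) := hh (r : F)
    rw [map_mul, h1]
  have hcont : ContinuousSMul H Zbar := inferInstance
  have hinv : Algebra.IsInvariant (𝓞 F) Zbar H := by
    constructor
    intro b hb
    have h1 : (b : AlgebraicClosure ℚ) ∈ F := by
      rw [← InfiniteGalois.fixedField_fixingSubgroup F, IntermediateField.mem_fixedField_iff]
      intro g hg
      exact congrArg (fun x : Zbar => (x : AlgebraicClosure ℚ)) (hb ⟨g, hg⟩)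
    have h2 : IsIntegral ℤ (⟨(b : AlgebraicClosure ℚ), h1⟩ : F) := by
      have : IsIntegral ℤ (b : AlgebraicClosure ℚ) := b.2
      rw [← isIntegral_algebraMap_iff (A := F) (B := AlgebraicClosure ℚ)
        (FaithfulSMul.algebraMap_injective _ _)]
      exact this
    exact ⟨⟨⟨(b : AlgebraicClosure ℚ), h1⟩, h2⟩, rfl⟩
  -- the prime of `F`
  have hunder : ∀ x : 𝓞 F, x ∈ (centre A).under (𝓞 F) ↔ incl F x ∈ centre A := fun x => Iff.rfl
  have hsinv : ∀ x : 𝓞 F, σ₀⁻¹ • incl F x - incl F x ∈ centre A := by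
    intro x
    have hint : IsIntegral ℤ (τ⁻¹ (x : F)) := by
      have h0 : IsIntegral ℤ (x : F) := x.2
      exact h0.map (τ⁻¹ : F ≃ₐ[ℚ] F)
    obtain ⟨y, hy1, hy2⟩ := hτ ⟨τ⁻¹ (x : F), hint⟩
    have h3 : σ₀⁻¹ • incl F x - incl F x = - incl F y := by
      apply Subtype.ext
      have e1 : ((σ₀⁻¹ • incl F x : Zbar) : AlgebraicClosure ℚ) =
        ((τ⁻¹ (x : F) : F) : AlgebraicClosure ℚ) := by
        change σ₀⁻¹ ((x : F) : AlgebraicClosure ℚ) = _
        have := hσ₀' (τ⁻¹ (x : F))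
        have h5 : τ (τ⁻¹ (x : F)) = (x : F) := τ.apply_symm_apply _
        rw [h5] at this
        rw [← this]
        exact σ₀.symm_apply_apply _
      have e2 : ((y : F) : AlgebraicClosure ℚ) = ((x : F) : AlgebraicClosure ℚ) -
        ((τ⁻¹ (x : F) : F) : AlgebraicClosure ℚ) := by
        rw [hy1]
        simp
      change ((σ₀⁻¹ • incl F x : Zbar) : AlgebraicClosure ℚ) - ((x : F) : AlgebraicClosure ℚ) =
        - ((y : F) : AlgebraicClosure ℚ)
      rw [e1, e2]
      ring
    rw [h3]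
    exact (centre A).neg_mem hy2
  have hPQ : (σ₀ • centre A).under (𝓞 F) = (centre A).under (𝓞 F) := by
    ext x
    change incl F x ∈ σ₀ • centre A ↔ incl F x ∈ centre A
    rw [Ideal.mem_pointwise_smul_iff_inv_smul_mem]
    constructor
    · intro h
      have := (centre A).sub_mem h (hsinv x)
      simpa using this
    · intro h
      have := (centre A).add_mem (hsinv x) h
      simpa using this
  have hprime : (σ₀ • centre A).IsPrime := inferInstance
  obtain ⟨h, hh⟩ := Algebra.IsInvariant.exists_smul_of_under_eq_of_profinite (A := 𝓞 F)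
    (B := Zbar) (G := H) (σ₀ • centre A) (centre A) hPQ
  let σ₁ : GQ := (h : GQ) * σ₀
  have hσ₁ : σ₁ • centre A = centre A := by
    conv_rhs => rw [hh]
    rw [mul_smul]
    rfl
  have hσ₁F : ∀ x : F, σ₁ (x : AlgebraicClosure ℚ) = τ x := by
    intro x
    change (h : GQ) (σ₀ (x : AlgebraicClosure ℚ)) = _
    rw [hσ₀' x]
    exact h.2 (τ x)
  have hσ₁r : ∀ r : 𝓞 F, σ₁ • incl F r - incl F r ∈ centre A := by
    intro r
    obtain ⟨y, hy1, hy2⟩ := hτ r
    have : σ₁ • incl F r - incl F r = incl F y := by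
      apply Subtype.ext
      change σ₁ ((r : F) : AlgebraicClosure ℚ) - ((r : F) : AlgebraicClosure ℚ) =
        ((y : F) : AlgebraicClosure ℚ)
      rw [hσ₁F, hy1]
      rfl
    rw [this]
    exact hy2
  let e : (Zbar ⧸ centre A) ≃+* (Zbar ⧸ centre A) :=
    Ideal.quotientEquiv (centre A) (centre A) (MulSemiringAction.toRingEquiv GQ Zbar σ₁) hσ₁.symm
  let l : (Zbar ⧸ centre A) ≃ₐ[𝓞 F ⧸ (centre A).under (𝓞 F)] (Zbar ⧸ centre A) :=
    AlgEquiv.ofRingEquiv (f := e) (by
      intro r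
      obtain ⟨n, rfl⟩ := Ideal.Quotient.mk_surjective r
      rw [Ideal.Quotient.algebraMap_mk_of_liesOver]
      change Ideal.Quotient.mk (centre A) (σ₁ • incl F n) = Ideal.Quotient.mk (centre A) (incl F n)
      rw [← sub_eq_zero, ← map_sub, Ideal.Quotient.eq_zero_iff_mem]
      exact hσ₁r n)
  obtain ⟨⟨g, hg1⟩, hg2⟩ := Ideal.Quotient.stabilizerHom_surjective_of_profinite (G := H)
    ((centre A).under (𝓞 F)) (centre A) l
  have hg3 : ∀ x : Zbar, (g : GQ) • x - σ₁ • x ∈ centre A := by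
    intro x
    have := congrArg (fun f => f (Ideal.Quotient.mk (centre A) x)) hg2
    rw [← Ideal.Quotient.eq_zero_iff_mem, map_sub, sub_eq_zero]
    exact this
  refine ⟨(g : GQ)⁻¹ * σ₁, ?_, ?_⟩
  · apply mem_inertiaSubgroupIn_of_centre hp hA
    intro x
    have h1 := hg3 x
    have h2 : (g : GQ)⁻¹ • ((g : GQ) • x - σ₁ • x) ∈ (g : GQ)⁻¹ • centre A :=
      Ideal.smul_mem_pointwise_smul _ _ _ h1
    have h3 : (g : GQ)⁻¹ • centre A = centre A := by
      have : (g : GQ) • centre A = centre A := hg1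
      conv_lhs => rw [← this]
      rw [inv_smul_smul]
    rw [h3, smul_sub, inv_smul_smul] at h2
    rw [mul_smul, ← neg_sub]
    exact (centre A).neg_mem h2
  · intro x
    change (g : GQ)⁻¹ (σ₁ (x : AlgebraicClosure ℚ)) = _
    rw [hσ₁F]
    exact (H.inv_mem g.2) (τ x)

/-- **Minkowski**: an open normal subgroup of the absolute Galois group of `ℚ` containing all
inertia subgroups is the whole group. -/
theorem eq_top_of_inertia_le (H : Subgroup GQ) [H.Normal] (hH : IsOpen (H : Set GQ))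
    (hI : ∀ ℓ : ℕ, ℓ.Prime → ∀ A : ValuationSubring (AlgebraicClosure ℚ), A.LiesOverPrime ℓ →
      A.inertiaSubgroupIn ℚ ≤ H) : H = ⊤ := by
  by_contra hne
  have hHc : IsClosed (H : Set GQ) := H.isClosed_of_isOpen hH
  let F : IntermediateField ℚ (AlgebraicClosure ℚ) := IntermediateField.fixedField H
  have hfix : F.fixingSubgroup = H := InfiniteGalois.fixingSubgroup_fixedField ⟨H, hHc⟩
  have hfd : FiniteDimensional ℚ F := by
    rw [← InfiniteGalois.isOpen_iff_finite]
    rw [hfix]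
    exact hH
  have hgal : IsGalois ℚ F := by
    have h1 := (InfiniteGalois.normal_iff_isGalois F).mp (by rw [hfix]; infer_instance)
    convert h1
    exact Subsingleton.elim _ _
  have hrank : 1 < Module.finrank ℚ F := by
    by_contra hle
    have hpos : 0 < Module.finrank ℚ F := Module.finrank_pos
    have h1 : Module.finrank ℚ F = 1 := by omega
    have h2 : F = ⊥ := IntermediateField.finrank_eq_one_iff.mp h1
    apply hne
    rw [← hfix, h2, IntermediateField.fixingSubgroup_bot]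
  obtain ⟨p, A, τ, hp, hA, hτ1, hτ⟩ := exists_inertia_ne_one F hrank
  obtain ⟨σ, hσ, hσF⟩ := exists_lift_inertia F hp hA τ hτ
  apply hτ1
  have hσH : σ ∈ F.fixingSubgroup := by
    rw [hfix]
    exact hI p hp A hA hσ
  ext x
  have h1 : σ (x : AlgebraicClosure ℚ) = (x : AlgebraicClosure ℚ) := hσH x
  rw [← hσF x, h1]
  rfl

/-- **Minkowski**, homomorphism version: a homomorphism from the absolute Galois group of `ℚ`
with open kernel which is trivial on all inertia subgroups is trivial. -/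
theorem hom_eq_one {M : Type*} [Group M] (χ : GQ →* M) (hopen : IsOpen (χ.ker : Set GQ))
    (h : ∀ ℓ : ℕ, ℓ.Prime → ∀ A : ValuationSubring (AlgebraicClosure ℚ), A.LiesOverPrime ℓ →
      ∀ σ ∈ A.inertiaSubgroupIn ℚ, χ σ = 1) (σ : GQ) : χ σ = 1 := by
  have : χ.ker = ⊤ := eq_top_of_inertia_le χ.ker hopen
    (fun ℓ hℓ A hA σ hσ => h ℓ hℓ A hA σ hσ)
  have h1 : σ ∈ χ.ker := this ▸ Subgroup.mem_top σ
  exact h1

end Fermat.Agent.Minkowski
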